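import Fermat.Agent.ML.ESide.Flat.Law

/-!
# ML / ESide / Flat / Defs : an abelian group whose law is given by chords and tangents of
`η² = 4 x³ + b₂ x² + 2 b₄ x + b₆`

`LineGroup b₂ b₄ b₆ cx ce` is the only interface between Mathlib's group law on `W.Point`
(`cx = x`, `ce = η = 2y + a₁x + a₃` on non zero points) and the valuation theoretic part.
-/

set_option autoImplicit false

namespace Fermat.Agent.ML.ESide

/-- the group law in the coordinates `(x, η)`; a line `η = L x + n` meets the curve at the abscissae `x₁, x₂, x₃`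
iff `4x³ + b₂x² + 2b₄x + b₆ - (Lx + n)² = 4 (x - x₁)(x - x₂)(x - x₃)`. -/
structure LineGroup {K : Type*} [Field K] (b₂ b₄ b₆ : K) {G : Type*} [AddCommGroup G]
    (cx ce : G → K) : Prop where
  eqn : ∀ P, P ≠ 0 → ce P ^ 2 = 4 * cx P ^ 3 + b₂ * cx P ^ 2 + 2 * b₄ * cx P + b₆
  neg_x : ∀ P, cx (-P) = cx P
  neg_e : ∀ P, P ≠ 0 → ce (-P) = -ce P
  inj : ∀ P Q, P ≠ 0 → Q ≠ 0 → cx P = cx Q → ce P = ce Q → P = Q
  chord : ∀ P Q, P ≠ 0 → Q ≠ 0 → cx P ≠ cx Q → P + Q ≠ 0 ∧ ∃ L n : K,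
    ce P = L * cx P + n ∧ ce Q = L * cx Q + n ∧ ce (P + Q) = -(L * cx (P + Q) + n) ∧
    b₂ = L ^ 2 - 4 * (cx P + cx Q + cx (P + Q)) ∧
    b₄ = L * n + 2 * (cx P * cx Q + cx P * cx (P + Q) + cx Q * cx (P + Q)) ∧
    b₆ = n ^ 2 - 4 * cx P * cx Q * cx (P + Q)
  tangent : ∀ P, P ≠ 0 → ce P ≠ 0 → P + P ≠ 0 ∧ ∃ L n : K,
    ce P = L * cx P + n ∧ L * ce P = 6 * cx P ^ 2 + b₂ * cx P + b₄ ∧
    ce (P + P) = -(L * cx (P + P) + n) ∧
    b₂ = L ^ 2 - 4 * (cx P + cx P + cx (P + P)) ∧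
    b₄ = L * n + 2 * (cx P * cx P + cx P * cx (P + P) + cx P * cx (P + P)) ∧
    b₆ = n ^ 2 - 4 * cx P * cx P * cx (P + P)

open Classical in
/-- the chart `u = x / η` (`0` at the origin). -/
noncomputable def chU {K : Type*} [Field K] {G : Type*} [AddCommGroup G] (cx ce : G → K) (P : G) : K :=
  if P = 0 then 0 else cx P / ce P

open Classical in
/-- the chart `v = 1 / η` (`0` at the origin). -/
noncomputable def chV {K : Type*} [Field K] {G : Type*} [AddCommGroup G] (ce : G → K) (P : G) : K :=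
  if P = 0 then 0 else (ce P)⁻¹

/-- `4 Δ` in terms of `b₂, b₄, b₆`. -/
def disc4 {R : Type*} [CommRing R] (b₂ b₄ b₆ : R) : R :=
  -b₂ ^ 2 * (b₂ * b₆ - b₄ ^ 2) - 32 * b₄ ^ 3 - 108 * b₆ ^ 2 + 36 * b₂ * b₄ * b₆

end Fermat.Agent.ML.ESide
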