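import Fermat.Agent.ML.ESide.Flat.Defs
import Fermat.Agent.S05.Formulas

/-!
# ML / ESide / Flat / Group : Mathlib's group law on `W.Point` is a `LineGroup`

`cx = x`, `ce = η = 2y + a₁x + a₃`.
-/

set_option autoImplicit false

namespace Fermat.Agent.ML.ESide

open WeierstrassCurve WeierstrassCurve.Affine WeierstrassCurve.Affine.Point

section aux

variable {K : Type*} [Field K]

/-- a line through two points with distinct abscissae: the two lower coefficients follow from the top one. -/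
theorem chord_aux (h2 : (2 : K) ≠ 0) {b₂ b₄ b₆ L n x₁ x₂ x₃ : K} (hx : x₁ ≠ x₂)
    (hb₂ : b₂ = L ^ 2 - 4 * (x₁ + x₂ + x₃))
    (e₁ : (L * x₁ + n) ^ 2 = 4 * x₁ ^ 3 + b₂ * x₁ ^ 2 + 2 * b₄ * x₁ + b₆)
    (e₂ : (L * x₂ + n) ^ 2 = 4 * x₂ ^ 3 + b₂ * x₂ ^ 2 + 2 * b₄ * x₂ + b₆) :
    b₄ = L * n + 2 * (x₁ * x₂ + x₁ * x₃ + x₂ * x₃) ∧ b₆ = n ^ 2 - 4 * x₁ * x₂ * x₃ := by
  have hd : x₁ - x₂ ≠ 0 := sub_ne_zero.2 hx
  have h4 : b₄ = L * n + 2 * (x₁ * x₂ + x₁ * x₃ + x₂ * x₃) := by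
    apply mul_left_cancel₀ (mul_ne_zero h2 hd)
    subst hb₂
    linear_combination e₂ - e₁
  refine ⟨h4, ?_⟩
  subst hb₂
  subst h4
  linear_combination -e₁

/-- a tangent line. -/
theorem tangent_aux {b₂ b₄ b₆ L n x₁ x₃ : K}
    (hb₂ : b₂ = L ^ 2 - 4 * (x₁ + x₁ + x₃))
    (e₁ : (L * x₁ + n) ^ 2 = 4 * x₁ ^ 3 + b₂ * x₁ ^ 2 + 2 * b₄ * x₁ + b₆)
    (e₂ : L * (L * x₁ + n) = 6 * x₁ ^ 2 + b₂ * x₁ + b₄) :
    b₄ = L * n + 2 * (x₁ * x₁ + x₁ * x₃ + x₁ * x₃) ∧ b₆ = n ^ 2 - 4 * x₁ * x₁ * x₃ := by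
  have h4 : b₄ = L * n + 2 * (x₁ * x₁ + x₁ * x₃ + x₁ * x₃) := by
    subst hb₂
    linear_combination -e₂
  refine ⟨h4, ?_⟩
  subst hb₂
  subst h4
  linear_combination -e₁

end aux

variable {K : Type*} [Field K] [DecidableEq K] (W : WeierstrassCurve.Affine K)

/-- `η = 2y + a₁x + a₃`. -/
def ptE (P : W.Point) : K := 2 * S05.yc P + W.a₁ * S05.xc P + W.a₃

theorem lineGroup_point (h2 : (2 : K) ≠ 0) :
    LineGroup W.b₂ W.b₄ W.b₆ (S05.xc : W.Point → K) (ptE W) where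
  eqn := fun P hP => S05.psi2_sq hP
  neg_x := fun P => S05.xc_neg P
  neg_e := by
    intro P hP
    simp only [ptE, S05.xc_neg, S05.yc_neg hP, negY]
    ring
  inj := by
    intro P Q hP hQ hx he
    rw [S05.eq_some_xc_yc hP, S05.eq_some_xc_yc hQ]
    have hy : S05.yc P = S05.yc Q := by
      apply mul_left_cancel₀ h2
      simp only [ptE, hx] at he
      linear_combination he
    simp only [hx, hy]
  chord := by
    intro P Q hP hQ hx
    cases P with
    | zero => exact absurd rfl hP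
    | some x1 y1 h1 =>
      cases Q with
      | zero => exact absurd rfl hQ
      | some x2 y2 h2' =>
        simp only [S05.xc_some] at hx
        have hd : x1 - x2 ≠ 0 := sub_ne_zero.2 hx
        rw [add_of_X_ne hx]
        refine ⟨some_ne_zero _, ?_⟩
        obtain ⟨l, hl⟩ : ∃ l, l = W.slope x1 x2 y1 y2 := ⟨_, rfl⟩
        have hl' : l * (x1 - x2) = y1 - y2 := by
          rw [hl, slope_of_X_ne hx, div_mul_cancel₀ _ hd]
        simp only [← hl, ptE, S05.xc_some, S05.yc_some]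
        have e1 := S05.psi2_sq (W := W) (P := Point.some x1 y1 h1) (some_ne_zero _)
        have e2 := S05.psi2_sq (W := W) (P := Point.some x2 y2 h2') (some_ne_zero _)
        simp only [S05.xc_some, S05.yc_some] at e1 e2
        have k1 : 2 * y1 + W.a₁ * x1 + W.a₃
            = (2 * l + W.a₁) * x1 + (2 * y1 + W.a₃ - 2 * l * x1) := by ring
        have k2 : 2 * y2 + W.a₁ * x2 + W.a₃
            = (2 * l + W.a₁) * x2 + (2 * y1 + W.a₃ - 2 * l * x1) := by
          linear_combination 2 * hl'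
        have k4 : W.b₂ = (2 * l + W.a₁) ^ 2 - 4 * (x1 + x2 + W.addX x1 x2 l) := by
          simp only [addX, b₂]; ring
        rw [k1] at e1
        rw [k2] at e2
        obtain ⟨k5, k6⟩ := chord_aux h2 hx k4 e1 e2
        refine ⟨2 * l + W.a₁, 2 * y1 + W.a₃ - 2 * l * x1, k1, k2, ?_, k4, k5, k6⟩
        simp only [addY, negAddY, negY]
        ring
  tangent := by
    intro P hP he
    cases P with
    | zero => exact absurd rfl hP
    | some x1 y1 h1 =>
      simp only [ptE, S05.xc_some, S05.yc_some] at he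
      have hy : y1 ≠ W.negY x1 y1 := by
        intro hy
        apply he
        simp only [negY] at hy
        linear_combination hy
      rw [add_self_of_Y_ne hy]
      refine ⟨some_ne_zero _, ?_⟩
      obtain ⟨l, hl⟩ : ∃ l, l = W.slope x1 x1 y1 y1 := ⟨_, rfl⟩
      have hl' : l * (2 * y1 + W.a₁ * x1 + W.a₃)
          = 3 * x1 ^ 2 + 2 * W.a₂ * x1 + W.a₄ - W.a₁ * y1 := by
        have : y1 - W.negY x1 y1 = 2 * y1 + W.a₁ * x1 + W.a₃ := by simp only [negY]; ring
        rw [hl, slope_of_Y_ne rfl hy, this, div_mul_cancel₀ _ he]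
      simp only [← hl, ptE, S05.xc_some, S05.yc_some]
      have e1 := S05.psi2_sq (W := W) (P := Point.some x1 y1 h1) (some_ne_zero _)
      simp only [S05.xc_some, S05.yc_some] at e1
      have k1 : 2 * y1 + W.a₁ * x1 + W.a₃
          = (2 * l + W.a₁) * x1 + (2 * y1 + W.a₃ - 2 * l * x1) := by ring
      have k2 : (2 * l + W.a₁) * (2 * y1 + W.a₁ * x1 + W.a₃)
          = 6 * x1 ^ 2 + W.b₂ * x1 + W.b₄ := by
        simp only [b₂, b₄]
        linear_combination 2 * hl'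
      have k4 : W.b₂ = (2 * l + W.a₁) ^ 2 - 4 * (x1 + x1 + W.addX x1 x1 l) := by
        simp only [addX, b₂]; ring
      have k2' := k2
      rw [k1] at e1 k2'
      obtain ⟨k5, k6⟩ := tangent_aux k4 e1 k2'
      refine ⟨2 * l + W.a₁, 2 * y1 + W.a₃ - 2 * l * x1, k1, k2, ?_, k4, k5, k6⟩
      simp only [addY, negAddY, negY]
      ring

end Fermat.Agent.ML.ESide
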