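import Mathlib

/-!
# ML / ESide / Flat / Law : the complete addition law attached to the linear form `Y`

Curve `Y² Z = 4 X³ + b₂ X² Z + 2 b₄ X Z² + b₆ Z³` (`Y = η = 2y + a₁x + a₃`).  The three biquadratic forms
`FX, FY, FZ` satisfy `(FX : FY : FZ)(P, Q) = (X : Y : Z)(P + Q) · Y(P - Q)`.
All identities are `ring` identities after parametrising the curve by a line `η = Λ x + n` and the abscissae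
`x₁, x₂, x₃` of its three intersection points.
-/

set_option autoImplicit false

namespace Fermat.Agent.ML.ESide

section defs

variable {R : Type*} [CommRing R]

/-- `X(P+Q) Y(P-Q)`. -/
def FX (b₂ b₄ b₆ X₁ Y₁ Z₁ X₂ Y₂ Z₂ : R) : R :=
  -b₂ * b₆ * Y₁ * Z₁ * Z₂ ^ 2 - b₂ * b₆ * Z₁ ^ 2 * Y₂ * Z₂ - b₂ * X₁ ^ 2 * X₂ * Y₂ - b₂ * X₁ * Y₁ * X₂ ^ 2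
  + b₄ ^ 2 * Y₁ * Z₁ * Z₂ ^ 2 + b₄ ^ 2 * Z₁ ^ 2 * Y₂ * Z₂ - 2 * b₄ * X₁ ^ 2 * Y₂ * Z₂
  - 4 * b₄ * X₁ * Y₁ * X₂ * Z₂ - 4 * b₄ * X₁ * Z₁ * X₂ * Y₂ - 2 * b₄ * Y₁ * Z₁ * X₂ ^ 2
  - 3 * b₆ * X₁ * Y₁ * Z₂ ^ 2 - 6 * b₆ * X₁ * Z₁ * Y₂ * Z₂ - 6 * b₆ * Y₁ * Z₁ * X₂ * Z₂
  - 3 * b₆ * Z₁ ^ 2 * X₂ * Y₂ + X₁ * Y₁ * Y₂ ^ 2 + Y₁ ^ 2 * X₂ * Y₂

/-- `Y(P+Q) Y(P-Q)`. -/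
def FY (b₂ b₄ b₆ X₁ Y₁ Z₁ X₂ Y₂ Z₂ : R) : R :=
  b₂ ^ 2 * b₆ * X₁ * Z₁ * Z₂ ^ 2 + b₂ ^ 2 * b₆ * Z₁ ^ 2 * X₂ * Z₂ - b₂ ^ 2 * X₁ ^ 2 * X₂ ^ 2
  - b₂ * b₄ ^ 2 * X₁ * Z₁ * Z₂ ^ 2 - b₂ * b₄ ^ 2 * Z₁ ^ 2 * X₂ * Z₂ + 2 * b₂ * b₄ * b₆ * Z₁ ^ 2 * Z₂ ^ 2
  - 2 * b₂ * b₄ * X₁ ^ 2 * X₂ * Z₂ - 2 * b₂ * b₄ * X₁ * Z₁ * X₂ ^ 2 + 3 * b₂ * b₆ * X₁ ^ 2 * Z₂ ^ 2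
  + 12 * b₂ * b₆ * X₁ * Z₁ * X₂ * Z₂ + 3 * b₂ * b₆ * Z₁ ^ 2 * X₂ ^ 2 - 2 * b₄ ^ 3 * Z₁ ^ 2 * Z₂ ^ 2
  - 4 * b₄ ^ 2 * X₁ ^ 2 * Z₂ ^ 2 - 16 * b₄ ^ 2 * X₁ * Z₁ * X₂ * Z₂ - 4 * b₄ ^ 2 * Z₁ ^ 2 * X₂ ^ 2
  - 6 * b₄ * b₆ * X₁ * Z₁ * Z₂ ^ 2 - 6 * b₄ * b₆ * Z₁ ^ 2 * X₂ * Z₂ + 24 * b₄ * X₁ ^ 2 * X₂ ^ 2
  - 9 * b₆ ^ 2 * Z₁ ^ 2 * Z₂ ^ 2 + 36 * b₆ * X₁ ^ 2 * X₂ * Z₂ + 36 * b₆ * X₁ * Z₁ * X₂ ^ 2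
  + Y₁ ^ 2 * Y₂ ^ 2

/-- `Z(P+Q) Y(P-Q)`. -/
def FZ (b₂ b₄ b₆ X₁ Y₁ Z₁ X₂ Y₂ Z₂ : R) : R :=
  b₂ * X₁ ^ 2 * Y₂ * Z₂ + 2 * b₂ * X₁ * Y₁ * X₂ * Z₂ + 2 * b₂ * X₁ * Z₁ * X₂ * Y₂ + b₂ * Y₁ * Z₁ * X₂ ^ 2
  + 2 * b₄ * X₁ * Y₁ * Z₂ ^ 2 + 4 * b₄ * X₁ * Z₁ * Y₂ * Z₂ + 4 * b₄ * Y₁ * Z₁ * X₂ * Z₂
  + 2 * b₄ * Z₁ ^ 2 * X₂ * Y₂ + 3 * b₆ * Y₁ * Z₁ * Z₂ ^ 2 + 3 * b₆ * Z₁ ^ 2 * Y₂ * Z₂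
  + 12 * X₁ ^ 2 * X₂ * Y₂ + 12 * X₁ * Y₁ * X₂ ^ 2 + Y₁ ^ 2 * Y₂ * Z₂ + Y₁ * Z₁ * Y₂ ^ 2

variable {S : Type*} [CommRing S] (φ : R →+* S) (b₂ b₄ b₆ X₁ Y₁ Z₁ X₂ Y₂ Z₂ : R)

theorem map_FX : φ (FX b₂ b₄ b₆ X₁ Y₁ Z₁ X₂ Y₂ Z₂) =
    FX (φ b₂) (φ b₄) (φ b₆) (φ X₁) (φ Y₁) (φ Z₁) (φ X₂) (φ Y₂) (φ Z₂) := by
  simp only [FX, map_add, map_sub, map_mul, map_pow, map_neg, map_ofNat]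

theorem map_FY : φ (FY b₂ b₄ b₆ X₁ Y₁ Z₁ X₂ Y₂ Z₂) =
    FY (φ b₂) (φ b₄) (φ b₆) (φ X₁) (φ Y₁) (φ Z₁) (φ X₂) (φ Y₂) (φ Z₂) := by
  simp only [FY, map_add, map_sub, map_mul, map_pow, map_ofNat]

theorem map_FZ : φ (FZ b₂ b₄ b₆ X₁ Y₁ Z₁ X₂ Y₂ Z₂) =
    FZ (φ b₂) (φ b₄) (φ b₆) (φ X₁) (φ Y₁) (φ Z₁) (φ X₂) (φ Y₂) (φ Z₂) := by
  simp only [FZ, map_add, map_mul, map_pow, map_ofNat]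

/-- bihomogeneity. -/
theorem FX_smul (s t : R) : FX b₂ b₄ b₆ (s * X₁) (s * Y₁) (s * Z₁) (t * X₂) (t * Y₂) (t * Z₂) =
    s ^ 2 * t ^ 2 * FX b₂ b₄ b₆ X₁ Y₁ Z₁ X₂ Y₂ Z₂ := by
  simp only [FX]; ring

theorem FY_smul (s t : R) : FY b₂ b₄ b₆ (s * X₁) (s * Y₁) (s * Z₁) (t * X₂) (t * Y₂) (t * Z₂) =
    s ^ 2 * t ^ 2 * FY b₂ b₄ b₆ X₁ Y₁ Z₁ X₂ Y₂ Z₂ := by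
  simp only [FY]; ring

theorem FZ_smul (s t : R) : FZ b₂ b₄ b₆ (s * X₁) (s * Y₁) (s * Z₁) (t * X₂) (t * Y₂) (t * Z₂) =
    s ^ 2 * t ^ 2 * FZ b₂ b₄ b₆ X₁ Y₁ Z₁ X₂ Y₂ Z₂ := by
  simp only [FZ]; ring

/-- the origin on the left. -/
theorem FX_zero_left : FX b₂ b₄ b₆ 0 1 0 X₂ Y₂ Z₂ = X₂ * Y₂ := by simp only [FX]; ring
theorem FY_zero_left : FY b₂ b₄ b₆ 0 1 0 X₂ Y₂ Z₂ = Y₂ * Y₂ := by simp only [FY]; ring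
theorem FZ_zero_left : FZ b₂ b₄ b₆ 0 1 0 X₂ Y₂ Z₂ = Z₂ * Y₂ := by simp only [FZ]; ring
theorem FX_zero_right : FX b₂ b₄ b₆ X₁ Y₁ Z₁ 0 1 0 = X₁ * Y₁ := by simp only [FX]; ring
theorem FY_zero_right : FY b₂ b₄ b₆ X₁ Y₁ Z₁ 0 1 0 = Y₁ * Y₁ := by simp only [FY]; ring
theorem FZ_zero_right : FZ b₂ b₄ b₆ X₁ Y₁ Z₁ 0 1 0 = Z₁ * Y₁ := by simp only [FZ]; ring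

/-- `FY` is even in `Y₂`. -/
theorem FY_neg_right : FY b₂ b₄ b₆ X₁ Y₁ Z₁ X₂ (-Y₂) Z₂ = FY b₂ b₄ b₆ X₁ Y₁ Z₁ X₂ Y₂ Z₂ := by
  simp only [FY]; ring

/-- `P + (-P) = O`. -/
theorem FX_self_neg : FX b₂ b₄ b₆ X₁ Y₁ Z₁ X₁ (-Y₁) Z₁ = 0 := by simp only [FX]; ring
theorem FZ_self_neg : FZ b₂ b₄ b₆ X₁ Y₁ Z₁ X₁ (-Y₁) Z₁ = 0 := by simp only [FZ]; ring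

end defs

section param

variable {R : Type*} [CommRing R] (x₁ x₂ x₃ L n : R)

/-- chord and tangent: `FX = x₃ FZ`. -/
theorem FX_param :
    FX (L ^ 2 - 4 * (x₁ + x₂ + x₃)) (L * n + 2 * (x₁ * x₂ + x₁ * x₃ + x₂ * x₃)) (n ^ 2 - 4 * x₁ * x₂ * x₃)
      x₁ (L * x₁ + n) 1 x₂ (L * x₂ + n) 1 =
    x₃ * FZ (L ^ 2 - 4 * (x₁ + x₂ + x₃)) (L * n + 2 * (x₁ * x₂ + x₁ * x₃ + x₂ * x₃))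
      (n ^ 2 - 4 * x₁ * x₂ * x₃) x₁ (L * x₁ + n) 1 x₂ (L * x₂ + n) 1 := by
  simp only [FX, FZ]; ring

theorem FY_param :
    FY (L ^ 2 - 4 * (x₁ + x₂ + x₃)) (L * n + 2 * (x₁ * x₂ + x₁ * x₃ + x₂ * x₃)) (n ^ 2 - 4 * x₁ * x₂ * x₃)
      x₁ (L * x₁ + n) 1 x₂ (L * x₂ + n) 1 =
    -(L * x₃ + n) * FZ (L ^ 2 - 4 * (x₁ + x₂ + x₃)) (L * n + 2 * (x₁ * x₂ + x₁ * x₃ + x₂ * x₃))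
      (n ^ 2 - 4 * x₁ * x₂ * x₃) x₁ (L * x₁ + n) 1 x₂ (L * x₂ + n) 1 := by
  simp only [FY, FZ]; ring

/-- `FZ(P, Q) = -4 η(P - Q) (x₁ - x₂)³`; here the line passes through `P` and `-Q`. -/
theorem FZ_param :
    FZ (L ^ 2 - 4 * (x₁ + x₂ + x₃)) (L * n + 2 * (x₁ * x₂ + x₁ * x₃ + x₂ * x₃)) (n ^ 2 - 4 * x₁ * x₂ * x₃)
      x₁ (L * x₁ + n) 1 x₂ (-(L * x₂ + n)) 1 = 4 * (L * x₃ + n) * (x₁ - x₂) ^ 3 := by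
  simp only [FZ]; ring

end param

end Fermat.Agent.ML.ESide
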