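import Fermat.Agent.ML.ESide.Flat.Law
import Fermat.Agent.S19.A.Order
import Fermat.Agent.S32.Defs

/-!
# ML / ESide / Flat / Order : [WP-O] a Hopf order from one chart and one complete addition law

`u, v : X → ℚ̄` equivariant, `A`-valued, separating the points of `X`, with
`u (x + y) = FX / FY`, `v (x + y) = FZ / FY`, `FY` a unit of `A` at all pairs.
Then `H := ℤ_(p)[u, v]` is a Hopf order.
-/

set_option autoImplicit false

namespace Fermat.Agent.ML.ESide

open Fermat.Agent.S19 (Qb Gam Rl IsEqv)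
open Fermat.Agent.S19.Order (eqvAlg isIntegral_of_mem_eqvAlg)

section Alg

/-- if `b * b' = 1` and `b'` is integral over `R` then `b' ∈ R[b]`. -/
theorem mem_adjoin_of_mul_eq_one_of_isIntegral {R S : Type*} [CommRing R] [CommRing S] [Algebra R S]
    {b b' : S} (h : b * b' = 1) (hint : IsIntegral R b') : b' ∈ Algebra.adjoin R {b} := by
  obtain ⟨P, hP, hP0⟩ := hint
  let _ : Invertible b' := ⟨b, h, by rw [mul_comm]; exact h⟩
  have h1 := Polynomial.eval₂_reverse_mul_pow (algebraMap R S) b' P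
  rw [hP0] at h1
  have h2 : Polynomial.eval₂ (algebraMap R S) b P.reverse = 0 := by
    have h3 : (⅟ b') = b := rfl
    rw [h3] at h1
    have h4 : Polynomial.eval₂ (algebraMap R S) b P.reverse * (b' ^ P.natDegree * b ^ P.natDegree)
        = 0 := by rw [← mul_assoc, h1, zero_mul]
    rwa [← mul_pow, mul_comm b' b, h, one_pow, mul_one] at h4
  have h5 : P.reverse = P.reverse.divX * Polynomial.X + Polynomial.C 1 := by
    conv_lhs => rw [← Polynomial.divX_mul_X_add P.reverse]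
    rw [Polynomial.coeff_zero_reverse, hP.leadingCoeff]
  rw [h5, Polynomial.eval₂_add, Polynomial.eval₂_mul, Polynomial.eval₂_X, Polynomial.eval₂_C,
    map_one] at h2
  have h6 : b' = -Polynomial.aeval b P.reverse.divX := by
    have h7 : Polynomial.eval₂ (algebraMap R S) b P.reverse.divX = Polynomial.aeval b P.reverse.divX :=
      rfl
    rw [h7] at h2
    linear_combination b' * h2 - (Polynomial.aeval b P.reverse.divX) * h
  rw [h6]
  refine Subalgebra.neg_mem _ ?_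
  rw [Algebra.adjoin_singleton_eq_range_aeval]
  exact ⟨_, rfl⟩

/-- a subalgebra of the functions on a finite set which separates the points spans everything. -/
theorem span_eq_top_of_separates {R K X : Type*} [CommRing R] [Field K] [Algebra R K] [Finite X]
    (H : Subalgebra R (X → K)) (hsep : ∀ x y : X, x ≠ y → ∃ a ∈ H, a x ≠ a y) :
    Submodule.span K (H : Set (X → K)) = ⊤ := by
  classical
  cases nonempty_fintype X
  set S : Subalgebra K (X → K) := Algebra.adjoin K (H : Set (X → K)) with hS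
  have hSspan : Subalgebra.toSubmodule S = Submodule.span K (H : Set (X → K)) := by
    rw [hS, Algebra.adjoin_eq_span]
    congr 1
    exact congrArg _ (Submonoid.closure_eq H.toSubmonoid)
  rw [← hSspan, eq_top_iff]
  have hHS : ∀ a ∈ H, a ∈ S := fun a ha => Algebra.subset_adjoin ha
  have hpair : ∀ x y : X, x ≠ y → ∃ a ∈ S, a x = 1 ∧ a y = 0 := by
    intro x y hxy
    obtain ⟨a, ha, hne⟩ := hsep x y hxy
    refine ⟨(a - algebraMap K (X → K) (a y)) * algebraMap K (X → K) (a x - a y)⁻¹,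
      S.mul_mem (S.sub_mem (hHS a ha) (S.algebraMap_mem _)) (S.algebraMap_mem _), ?_, ?_⟩
    · show (a x - a y) * (a x - a y)⁻¹ = 1
      exact mul_inv_cancel₀ (sub_ne_zero.mpr hne)
    · show (a y - a y) * (a x - a y)⁻¹ = 0
      rw [sub_self, zero_mul]
  have hsingle : ∀ x : X, Pi.single x (1 : K) ∈ S := by
    intro x
    choose! a haS ha1 ha0 using hpair x
    have h1 : Pi.single x (1 : K) = ∏ y ∈ Finset.univ.erase x, a y := by
      funext z
      rw [Finset.prod_apply]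
      by_cases hz : z = x
      · subst hz
        rw [Pi.single_eq_same]
        exact (Finset.prod_eq_one fun y hy => ha1 y (Finset.ne_of_mem_erase hy).symm).symm
      · rw [Pi.single_eq_of_ne hz]
        exact (Finset.prod_eq_zero (f := fun y => a y z)
          (Finset.mem_erase.mpr ⟨hz, Finset.mem_univ z⟩) (ha0 z (Ne.symm hz))).symm
    rw [h1]
    exact S.prod_mem fun y hy => haS y (Finset.ne_of_mem_erase hy).symm
  intro f _
  have hf : f = ∑ x, f x • Pi.single x (1 : K) := by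
    funext z
    rw [Finset.sum_apply, Finset.sum_eq_single z]
    · simp
    · intro y _ hy
      simp [Pi.single_eq_of_ne (Ne.symm hy)]
    · intro h
      exact absurd (Finset.mem_univ z) h
  rw [hf]
  exact Submodule.sum_mem _ fun x _ => Submodule.smul_mem _ _ (hsingle x)

end Alg

section Dec

variable {R K X : Type*} [CommRing R] [Field K] [Algebra R K]

/-- pull-back of functions along a map. -/
def pullHom (R K : Type*) [CommRing R] [Field K] [Algebra R K] {X Y : Type*} (f : Y → X) :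
    (X → K) →ₐ[R] (Y → K) where
  toFun a := fun y => a (f y)
  map_one' := rfl
  map_mul' _ _ := rfl
  map_zero' := rfl
  map_add' _ _ := rfl
  commutes' _ := rfl

@[simp] theorem pullHom_apply {X Y : Type*} (f : Y → X) (a : X → K) (y : Y) :
    pullHom R K f a y = a (f y) := rfl

/-- the image of `H ⊗ H` in the functions on `X × X`. -/
def boxAlg (H : Subalgebra R (X → K)) : Subalgebra R (X × X → K) :=
  H.map (pullHom R K Prod.fst) ⊔ H.map (pullHom R K Prod.snd)

theorem exists_dec_of_mem_boxAlg (H : Subalgebra R (X → K)) {F : X × X → K} (hF : F ∈ boxAlg H) :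
    ∃ (n : ℕ) (b c : Fin n → X → K), (∀ i, b i ∈ H) ∧ (∀ i, c i ∈ H) ∧
      ∀ x y, F (x, y) = ∑ i, b i x * c i y := by
  have h1 : F ∈ Subalgebra.toSubmodule (H.map (pullHom R K Prod.fst)) *
      Subalgebra.toSubmodule (H.map (pullHom R K Prod.snd)) := by
    rw [Subalgebra.mul_toSubmodule]
    exact hF
  clear hF
  induction h1 using Submodule.mul_induction_on' with
  | mem_mul_mem m hm n hn =>
    obtain ⟨b, hb, rfl⟩ := hm
    obtain ⟨c, hc, rfl⟩ := hn
    exact ⟨1, fun _ => b, fun _ => c, fun _ => hb, fun _ => hc, fun x y => by simp⟩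
  | add F₁ _ F₂ _ h₁ h₂ =>
    obtain ⟨n₁, b₁, c₁, hb₁, hc₁, e₁⟩ := h₁
    obtain ⟨n₂, b₂, c₂, hb₂, hc₂, e₂⟩ := h₂
    refine ⟨n₁ + n₂, Fin.append b₁ b₂, Fin.append c₁ c₂, ?_, ?_, fun x y => ?_⟩
    · intro i
      refine Fin.addCases (fun j => ?_) (fun j => ?_) i
      · rw [Fin.append_left]; exact hb₁ j
      · rw [Fin.append_right]; exact hb₂ j
    · intro i
      refine Fin.addCases (fun j => ?_) (fun j => ?_) i
      · rw [Fin.append_left]; exact hc₁ j
      · rw [Fin.append_right]; exact hc₂ j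
    · rw [Fin.sum_univ_add, Pi.add_apply, e₁, e₂]
      simp only [Fin.append_left, Fin.append_right]

end Dec

theorem hasOrder_of_chart {p : ℕ} [Fact p.Prime] (A : ValuationSubring Qb) (hA : A.LiesOverPrime p)
    {X : Type} [AddCommGroup X] [DistribMulAction Gam X] [Finite X] (b₂ b₄ b₆ : ℤ) (u v : X → Qb)
    (hu : IsEqv u) (hv : IsEqv v) (huA : ∀ x, u x ∈ A) (hvA : ∀ x, v x ∈ A) (hu0 : u 0 = 0)
    (hv0 : v 0 = 0) (hsep : ∀ x y, u x = u y → v x = v y → x = y)
    (hne : ∀ x y, FY (b₂ : Qb) b₄ b₆ (u x) 1 (v x) (u y) 1 (v y) ≠ 0)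
    (hunit : ∀ x y, (FY (b₂ : Qb) b₄ b₆ (u x) 1 (v x) (u y) 1 (v y))⁻¹ ∈ A)
    (hX : ∀ x y, u (x + y) * FY (b₂ : Qb) b₄ b₆ (u x) 1 (v x) (u y) 1 (v y) =
      FX (b₂ : Qb) b₄ b₆ (u x) 1 (v x) (u y) 1 (v y))
    (hZ : ∀ x y, v (x + y) * FY (b₂ : Qb) b₄ b₆ (u x) 1 (v x) (u y) 1 (v y) =
      FZ (b₂ : Qb) b₄ b₆ (u x) 1 (v x) (u y) 1 (v y)) : S32.HasOrder p X := by
  classical
  set H : Subalgebra (Rl p) (X → Qb) := Algebra.adjoin (Rl p) {u, v} with hH
  have huH : u ∈ H := Algebra.subset_adjoin (Set.mem_insert _ _)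
  have hvH : v ∈ H := Algebra.subset_adjoin (Set.mem_insert_of_mem _ rfl)
  have hsE : ({u, v} : Set (X → Qb)) ⊆ eqvAlg A hA X := by
    rintro a (rfl | rfl)
    · exact ⟨hu, huA⟩
    · exact ⟨hv, hvA⟩
  have hle : H ≤ eqvAlg A hA X := Algebra.adjoin_le hsE
  -- the box algebra
  set D : Subalgebra (Rl p) (X × X → Qb) := boxAlg H with hD
  have hfst : ∀ a ∈ H, pullHom (Rl p) Qb (Prod.fst : X × X → X) a ∈ D := fun a ha =>
    (le_sup_left : H.map (pullHom (Rl p) Qb Prod.fst) ≤ D) ⟨a, ha, rfl⟩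
  have hsnd : ∀ a ∈ H, pullHom (Rl p) Qb (Prod.snd : X × X → X) a ∈ D := fun a ha =>
    (le_sup_right : H.map (pullHom (Rl p) Qb Prod.snd) ≤ D) ⟨a, ha, rfl⟩
  have hDle : D ≤ eqvAlg A hA (X × X) := by
    refine sup_le ?_ ?_
    · rintro _ ⟨a, ha, rfl⟩
      exact ⟨fun σ q => (hle ha).1 σ q.1, fun q => (hle ha).2 q.1⟩
    · rintro _ ⟨a, ha, rfl⟩
      exact ⟨fun σ q => (hle ha).1 σ q.2, fun q => (hle ha).2 q.2⟩
  let U₁ : D := ⟨_, hfst u huH⟩
  let V₁ : D := ⟨_, hfst v hvH⟩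
  let U₂ : D := ⟨_, hsnd u huH⟩
  let V₂ : D := ⟨_, hsnd v hvH⟩
  let gX : D := FX (b₂ : D) b₄ b₆ U₁ 1 V₁ U₂ 1 V₂
  let gY : D := FY (b₂ : D) b₄ b₆ U₁ 1 V₁ U₂ 1 V₂
  let gZ : D := FZ (b₂ : D) b₄ b₆ U₁ 1 V₁ U₂ 1 V₂
  let ev : X × X → (D →+* Qb) := fun q =>
    (Pi.evalRingHom (fun _ : X × X => Qb) q).comp (D.val : D →+* (X × X → Qb))
  have hgX : ∀ q : X × X, (gX : X × X → Qb) q =
      FX (b₂ : Qb) b₄ b₆ (u q.1) 1 (v q.1) (u q.2) 1 (v q.2) := by
    intro q
    have h1 := map_FX (ev q) (b₂ : D) b₄ b₆ U₁ 1 V₁ U₂ 1 V₂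
    rw [map_intCast, map_intCast, map_intCast, map_one] at h1
    exact h1
  have hgY : ∀ q : X × X, (gY : X × X → Qb) q =
      FY (b₂ : Qb) b₄ b₆ (u q.1) 1 (v q.1) (u q.2) 1 (v q.2) := by
    intro q
    have h1 := map_FY (ev q) (b₂ : D) b₄ b₆ U₁ 1 V₁ U₂ 1 V₂
    rw [map_intCast, map_intCast, map_intCast, map_one] at h1
    exact h1
  have hgZ : ∀ q : X × X, (gZ : X × X → Qb) q =
      FZ (b₂ : Qb) b₄ b₆ (u q.1) 1 (v q.1) (u q.2) 1 (v q.2) := by
    intro q
    have h1 := map_FZ (ev q) (b₂ : D) b₄ b₆ U₁ 1 V₁ U₂ 1 V₂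
    rw [map_intCast, map_intCast, map_intCast, map_one] at h1
    exact h1
  -- the inverse of `gY`
  set gI : X × X → Qb := fun q => ((gY : X × X → Qb) q)⁻¹ with hgI
  have hgIE : gI ∈ eqvAlg A hA (X × X) := by
    refine ⟨fun σ q => ?_, fun q => ?_⟩
    · show ((gY : X × X → Qb) (σ • q))⁻¹ = σ (((gY : X × X → Qb) q)⁻¹)
      rw [(hDle gY.2).1 σ q, map_inv₀]
    · show ((gY : X × X → Qb) q)⁻¹ ∈ A
      rw [hgY]
      exact hunit q.1 q.2
  have hmul : (gY : X × X → Qb) * gI = 1 := by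
    funext q
    show (gY : X × X → Qb) q * ((gY : X × X → Qb) q)⁻¹ = 1
    refine mul_inv_cancel₀ ?_
    rw [hgY]
    exact hne q.1 q.2
  have hgID : gI ∈ D := by
    have h1 := mem_adjoin_of_mul_eq_one_of_isIntegral hmul (isIntegral_of_mem_eqvAlg A hA hgIE)
    refine (Algebra.adjoin_le ?_ : Algebra.adjoin (Rl p) {(gY : X × X → Qb)} ≤ D) h1
    rintro _ rfl
    exact gY.2
  -- the comultiplication
  have hadd : H.map (pullHom (Rl p) Qb (fun q : X × X => q.1 + q.2)) ≤ D := by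
    rw [hH, AlgHom.map_adjoin]
    refine Algebra.adjoin_le ?_
    rintro _ ⟨a, (rfl | rfl), rfl⟩
    · have h1 : pullHom (Rl p) Qb (fun q : X × X => q.1 + q.2) a = (gX : X × X → Qb) * gI := by
        funext q
        show a (q.1 + q.2) = (gX : X × X → Qb) q * ((gY : X × X → Qb) q)⁻¹
        rw [hgX, hgY, ← hX, mul_assoc, mul_inv_cancel₀ (hne q.1 q.2), mul_one]
      show pullHom (Rl p) Qb (fun q : X × X => q.1 + q.2) a ∈ D
      rw [h1]
      exact D.mul_mem gX.2 hgID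
    · have h1 : pullHom (Rl p) Qb (fun q : X × X => q.1 + q.2) a = (gZ : X × X → Qb) * gI := by
        funext q
        show a (q.1 + q.2) = (gZ : X × X → Qb) q * ((gY : X × X → Qb) q)⁻¹
        rw [hgZ, hgY, ← hZ, mul_assoc, mul_inv_cancel₀ (hne q.1 q.2), mul_one]
      show pullHom (Rl p) Qb (fun q : X × X => q.1 + q.2) a ∈ D
      rw [h1]
      exact D.mul_mem gZ.2 hgID
  refine ⟨H, ⟨fun a ha => (hle ha).1, ?_, ?_, ?_, ?_⟩⟩
  · exact fg_adjoin_of_finite (Set.toFinite _) fun x hx => isIntegral_of_mem_eqvAlg A hA (hsE hx)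
  · refine span_eq_top_of_separates H fun x y hxy => ?_
    by_cases h1 : u x = u y
    · exact ⟨v, hvH, fun h2 => hxy (hsep x y h1 h2)⟩
    · exact ⟨u, huH, h1⟩
  · intro a ha
    obtain ⟨n, b, c, hb, hc, e⟩ := exists_dec_of_mem_boxAlg H (hadd ⟨a, ha, rfl⟩)
    exact ⟨n, b, c, hb, hc, fun x y => e x y⟩
  · intro a ha
    refine Fermat.Agent.S19.mem_range_Rl_of_fixed A hA (a 0) (fun σ => ?_) ((hle ha).2 0)
    rw [← (hle ha).1 σ 0, smul_zero]

end Fermat.Agent.ML.ESide
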